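import Mathlib
import Fermat.Agent.LT.T7.H973.PreBQSpec
import Fermat.Agent.LT.T7.H281.LevelInv
import Fermat.Agent.LT.H129.CartanInv

/-!
# Row LT, tower T7, node `PBQ973.PreBQC973` (second cut of helper973 over `ℚ`), leaf
# T7.L2Q.1.H2a.B.0.D3 `SwapDnInvQC973` -- PROVED, UNCONDITIONAL (helper459, registry row 3140)

OFF-MAIN.  No hole, nothing assumed.  ADDITIVE (new names only, suffix `459`, namespace
`Fermat.Agent.LT.T7.H459`).

    swapDnInvQC459 (F) : PBQ973.SwapDnInvQC973 F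

verbatim against `LT/T7/H973/PreBQSpec.lean` (helper973, sha256 200eee4e).  NOT conditional on
the key identity `SwapDnSumQC973`.

Proof (the mirror over `ℚ` of helper313 `T7/H313/SwapDnInv.lean`, the cubic leaf
`PB57.SwapDnInvC57`).  Every member `pureQ298 (T ω) (swDnQ973 B T₀ fb (f₀ ω)) (Fr ω)` of the
average is invariant on both sides under every element `k` which is trivial at infinity, Iwahori
at `u` and in `U(m v)` at the finite places `v ≠ u` (`IsGood459`; `pureQ_swDn_inv459`):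
* the condition `OutT305` outside `T ω`: `k` and `k⁻¹` are integral at every finite place;
* at `u ∈ T₀ ⊆ T ω` the component is the indicator function of the Iwahori subgroup
  (`T7/H340/IwKit.lean`: the Iwahori elements form a group);
* at `v ∈ T₀`, `v ≠ u`, the component is the partner `fb v`, bi-`U(m v)`-invariant
  (`IsBadPartQ973.inv_down`);
* at `v ∈ T ω`, `v ∉ T₀`, the component is spherical (`SphOut893` of the first pair, clause of
  `CQ801.LocAQ801`) and the Cartan invariant is bi-`U(0)`-invariant (`H129/CartanInv.lean`);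
* at the real place the component of `k` is trivial (`reGLQ_eq_one459`), for the two types
  (the archimedean component `archQ973 F0 F1 t ω` is arbitrary).
The elements of the level group `U(𝔫)` are good (`IsLevelOf893 𝔫 m`, `u ∣ 𝔫`:
`T7/H281/LevelInv.lean`), and so are the Iwahori elements supported at `u`.
-/

set_option autoImplicit false
set_option linter.unusedSectionVars false
set_option linter.unusedVariables false
set_option linter.style.haveILetI false

open AutomorphicForm IsDedekindDomain NumberField MeasureTheory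

noncomputable section

namespace Fermat.Agent.LT.T7.H459

open Fermat.Agent.LT.H556 Fermat.Agent.LT.H556.A0 Fermat.Agent.LT.T7 Fermat.Agent.LT.T7.H305
  Fermat.Agent.LT.T7.L2Q Fermat.Agent.LT.T7.H893 Fermat.Agent.LT.T7.H962
  Fermat.Agent.LT.T7.H732 Fermat.Agent.LT.T7.MQ298 Fermat.Agent.LT.T7.CQ801
  Fermat.Agent.LT.T7.PBQ973

attribute [local instance] Fermat.Agent.LT.T5.instMeasurableSpaceG

section OneField

variable {K : Type} [Field K] [NumberField K]

/-! ## 1. Components -/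

theorem finGL_apply459 (v : HeightOneSpectrum (𝓞 K)) (g : G K) (i j : Fin 2) :
    ((finGL305 v g : GL (Fin 2) (v.adicCompletion K)) :
      Matrix (Fin 2) (Fin 2) (v.adicCompletion K)) i j = finComp v g i j := rfl

theorem finGL_inv_apply459 (v : HeightOneSpectrum (𝓞 K)) (g : G K) (i j : Fin 2) :
    (((finGL305 v g)⁻¹ : GL (Fin 2) (v.adicCompletion K)) :
      Matrix (Fin 2) (Fin 2) (v.adicCompletion K)) i j = finComp v g⁻¹ i j := by
  rw [← map_inv]
  rfl

theorem finGL_eq_one459 {v : HeightOneSpectrum (𝓞 K)} {g : G K} (h : TrivAtFin v g) :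
    finGL305 v g = 1 := by
  refine Units.ext (Matrix.ext fun i j => ?_)
  rw [finGL_apply459]
  have h' : finComp v g = 1 := h
  rw [h']
  rfl

/-! ## 2. The local groups -/

theorem inU_one459 {k : Type} [Field k] [Valued k (WithZero (Multiplicative ℤ))] (n : ℕ) :
    T6.InU n (1 : GL (Fin 2) k) := by
  intro i j
  refine ⟨?_, ?_⟩
  · rw [Units.val_one, sub_self, map_zero]
    exact zero_le
  · rw [inv_one, Units.val_one, sub_self, map_zero]
    exact zero_le

theorem inU_zero_of459 {k : Type} [Field k] [Valued k (WithZero (Multiplicative ℤ))] {n : ℕ}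
    {x : GL (Fin 2) k} (h : T6.InU n x) : T6.InU 0 x := by
  have hle : WithZero.exp (-(n : ℤ)) ≤ WithZero.exp (-((0 : ℕ) : ℤ)) := by
    rw [WithZero.exp_le_exp]
    simp
  intro i j
  exact ⟨(h i j).1.trans hle, (h i j).2.trans hle⟩

/-- The elements of `U(n)` of the form `finGL305 v k` are integral with integral inverse. -/
theorem isIntegralAt_of_inU459 {v : HeightOneSpectrum (𝓞 K)} {n : ℕ} {k : G K}
    (h : T6.InU n (finGL305 v k)) : IsIntegralAt v k ∧ IsIntegralAt v k⁻¹ := by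
  have h0 := (Fermat.Agent.LT.H129.inU_zero_iff129 _).1 (inU_zero_of459 h)
  refine ⟨fun i j => ?_, fun i j => ?_⟩
  · rw [HeightOneSpectrum.mem_adicCompletionIntegers, ← finGL_apply459]
    exact h0.1 i j
  · rw [HeightOneSpectrum.mem_adicCompletionIntegers, ← finGL_inv_apply459]
    exact h0.2 i j

theorem inIw_iff459 (w : HeightOneSpectrum (𝓞 K)) (g : G K) :
    InIw893 (finGL305 w g) ↔ T5.InIwahori w g := by
  constructor
  · rintro ⟨h1, h2, h3⟩
    refine ⟨fun i j => ?_, fun i j => ?_, h3⟩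
    · rw [HeightOneSpectrum.mem_adicCompletionIntegers, ← finGL_apply459]
      exact h1 i j
    · rw [HeightOneSpectrum.mem_adicCompletionIntegers, ← finGL_inv_apply459]
      exact h2 i j
  · rintro ⟨h1, h2, h3⟩
    refine ⟨fun i j => ?_, fun i j => ?_, h3⟩
    · rw [finGL_apply459]
      exact (HeightOneSpectrum.mem_adicCompletionIntegers _ _ _).1 (h1 i j)
    · rw [finGL_inv_apply459]
      exact (HeightOneSpectrum.mem_adicCompletionIntegers _ _ _).1 (h2 i j)

theorem inIwahori_mul_left_iff459 {w : HeightOneSpectrum (𝓞 K)} {k : G K}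
    (hk : T5.InIwahori w k) (y : G K) : T5.InIwahori w (k * y) ↔ T5.InIwahori w y := by
  constructor
  · intro h
    have := H340.inIwahori_mul340 (H340.inIwahori_inv340 hk) h
    rwa [inv_mul_cancel_left] at this
  · exact fun h => H340.inIwahori_mul340 hk h

theorem inIwahori_mul_right_iff459 {w : HeightOneSpectrum (𝓞 K)} {k : G K}
    (hk : T5.InIwahori w k) (y : G K) : T5.InIwahori w (y * k) ↔ T5.InIwahori w y := by
  constructor
  · intro h
    have := H340.inIwahori_mul340 h (H340.inIwahori_inv340 hk)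
    rwa [mul_inv_cancel_right] at this
  · exact fun h => H340.inIwahori_mul340 h hk

theorem isIntegralAt_mul459 (v : HeightOneSpectrum (𝓞 K)) {a b : G K}
    (ha : IsIntegralAt v a) (hb : IsIntegralAt v b) : IsIntegralAt v (a * b) :=
  Fermat.Agent.LT.T5.H942.isIntegralAt_mul942 v ha hb

/-! ## 3. The good elements -/

/-- `k` is trivial at infinity, Iwahori at `u` and in `U(m v)` at the finite places `v ≠ u`. -/
def IsGood459 (u : HeightOneSpectrum (𝓞 K)) (m : HeightOneSpectrum (𝓞 K) → ℕ) (k : G K) :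
    Prop :=
  (∀ w : InfinitePlace K, TrivAtInf w k) ∧ T5.InIwahori u k ∧
    ∀ v : HeightOneSpectrum (𝓞 K), v ≠ u → T6.InU (m v) (finGL305 v k)

theorem IsGood459.integral {u : HeightOneSpectrum (𝓞 K)} {m : HeightOneSpectrum (𝓞 K) → ℕ}
    {k : G K} (hk : IsGood459 u m k) (v : HeightOneSpectrum (𝓞 K)) :
    IsIntegralAt v k ∧ IsIntegralAt v k⁻¹ := by
  by_cases hv : v = u
  · subst hv
    exact ⟨hk.2.1.1, hk.2.1.2.1⟩
  · exact isIntegralAt_of_inU459 (hk.2.2 v hv)

theorem outT_mul_left_iff459 {u : HeightOneSpectrum (𝓞 K)} {m : HeightOneSpectrum (𝓞 K) → ℕ}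
    {k : G K} (hk : IsGood459 u m k) (T : Finset (HeightOneSpectrum (𝓞 K))) (y : G K) :
    OutT305 T (k * y) ↔ OutT305 T y := by
  constructor
  · intro h v hv
    obtain ⟨h1, h2⟩ := h v hv
    obtain ⟨k1, k2⟩ := hk.integral v
    refine ⟨?_, ?_⟩
    · have := isIntegralAt_mul459 v k2 h1
      rwa [inv_mul_cancel_left] at this
    · have := isIntegralAt_mul459 v h2 k1
      rwa [mul_inv_rev, inv_mul_cancel_right] at this
  · intro h v hv
    obtain ⟨h1, h2⟩ := h v hv
    obtain ⟨k1, k2⟩ := hk.integral v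
    refine ⟨isIntegralAt_mul459 v k1 h1, ?_⟩
    rw [mul_inv_rev]
    exact isIntegralAt_mul459 v h2 k2

theorem outT_mul_right_iff459 {u : HeightOneSpectrum (𝓞 K)} {m : HeightOneSpectrum (𝓞 K) → ℕ}
    {k : G K} (hk : IsGood459 u m k) (T : Finset (HeightOneSpectrum (𝓞 K))) (y : G K) :
    OutT305 T (y * k) ↔ OutT305 T y := by
  constructor
  · intro h v hv
    obtain ⟨h1, h2⟩ := h v hv
    obtain ⟨k1, k2⟩ := hk.integral v
    refine ⟨?_, ?_⟩
    · have := isIntegralAt_mul459 v h1 k2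
      rwa [mul_inv_cancel_right] at this
    · have := isIntegralAt_mul459 v k1 h2
      rwa [mul_inv_rev, mul_inv_cancel_left] at this
  · intro h v hv
    obtain ⟨h1, h2⟩ := h v hv
    obtain ⟨k1, k2⟩ := hk.integral v
    refine ⟨isIntegralAt_mul459 v h1 k1, ?_⟩
    rw [mul_inv_rev]
    exact isIntegralAt_mul459 v k2 h2

/-- The elements of the level group are good. -/
theorem isGood_of_level459 {𝔫 : Ideal (𝓞 K)} {u : HeightOneSpectrum (𝓞 K)}
    {m : HeightOneSpectrum (𝓞 K) → ℕ} (hu : u.asIdeal ∣ 𝔫) (hm : IsLevelOf893 𝔫 m) {k : G K}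
    (hk : InLevelGroup 𝔫 k) : IsGood459 u m k := by
  refine ⟨hk.1, H281.inIwahori_of_level281 hu hk, fun v _ i j => ⟨?_, ?_⟩⟩
  · have := (hm v _).1 (hk.2 v i j).1
    rwa [Matrix.sub_apply, ← finGL_apply459] at this
  · have := (hm v _).1 (hk.2 v i j).2
    rwa [Matrix.sub_apply, ← finGL_inv_apply459] at this

/-- The Iwahori elements supported at `u` are good. -/
theorem isGood_of_iw459 {u : HeightOneSpectrum (𝓞 K)} (m : HeightOneSpectrum (𝓞 K) → ℕ)
    {h : G K} (h1 : ∀ w : InfinitePlace K, TrivAtInf w h)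
    (h2 : ∀ v : HeightOneSpectrum (𝓞 K), v ≠ u → TrivAtFin v h) (h3 : T5.InIwahori u h) :
    IsGood459 u m h := by
  refine ⟨h1, h3, fun v hv => ?_⟩
  rw [finGL_eq_one459 (h2 v hv)]
  exact inU_one459 _

end OneField

/-! ## 4. The real place of `ℚ` -/

/-- The component at the real place of an element which is trivial at infinity. -/
theorem reGLQ_eq_one459 {k : G ℚ} (h : TrivAtInf Rat.infinitePlace k) : reGLQ298 k = 1 := by
  refine Units.ext (Matrix.ext fun i j => ?_)
  show InfinitePlace.Completion.extensionEmbeddingOfIsReal Rat.isReal_infinitePlace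
    (((k : Matrix (Fin 2) (Fin 2) (Adl ℚ)) i j).1 Rat.infinitePlace)
      = (1 : Matrix (Fin 2) (Fin 2) ℝ) i j
  rw [h i j]
  by_cases hij : i = j
  · subst hij
    rw [Matrix.one_apply_eq, Matrix.one_apply_eq, map_one]
  · rw [Matrix.one_apply_ne hij, Matrix.one_apply_ne hij, map_zero]

/-! ## 5. The swapped components -/

section Swap

variable {F : Type} [Field F] [NumberField F]

open Classical in
/-- The swapped components are invariant under the components of a good element. -/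
theorem swDnQ_inv459 (B : L2QBase962 F) (T₀ T : Finset (HeightOneSpectrum (𝓞 ℚ)))
    (m : HeightOneSpectrum (𝓞 ℚ) → ℕ)
    (fb f₀ : ∀ v : HeightOneSpectrum (𝓞 ℚ), GL (Fin 2) (v.adicCompletion ℚ) → ℂ)
    (hfb : ∀ v ∈ T₀.erase B.u, T6.IsBiInv (T6.InU (m v)) (fb v))
    (hsph : ∀ v ∈ T, v ∉ T₀ → ∃ Av : (ℤ × ℤ) →₀ ℂ, IsSphFn893 (f₀ v) Av)
    {k : G ℚ} (hk : IsGood459 B.u m k) (v : HeightOneSpectrum (𝓞 ℚ)) (hv : v ∈ T) (y : G ℚ) :
    swDnQ973 B T₀ fb f₀ v (finGL305 v (k * y)) = swDnQ973 B T₀ fb f₀ v (finGL305 v y) ∧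
      swDnQ973 B T₀ fb f₀ v (finGL305 v (y * k)) = swDnQ973 B T₀ fb f₀ v (finGL305 v y) := by
  unfold swDnQ973
  by_cases hvu : v = B.u
  · subst hvu
    simp only [if_true]
    unfold iwFn893
    have h1 : InIw893 (finGL305 B.u (k * y)) ↔ InIw893 (finGL305 B.u y) := by
      rw [inIw_iff459, inIw_iff459]
      exact inIwahori_mul_left_iff459 hk.2.1 y
    have h2 : InIw893 (finGL305 B.u (y * k)) ↔ InIw893 (finGL305 B.u y) := by
      rw [inIw_iff459, inIw_iff459]
      exact inIwahori_mul_right_iff459 hk.2.1 y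
    refine ⟨?_, ?_⟩
    · by_cases hy : InIw893 (finGL305 B.u y)
      · rw [if_pos hy, if_pos (h1.2 hy)]
      · rw [if_neg hy, if_neg (fun h => hy (h1.1 h))]
    · by_cases hy : InIw893 (finGL305 B.u y)
      · rw [if_pos hy, if_pos (h2.2 hy)]
      · rw [if_neg hy, if_neg (fun h => hy (h2.1 h))]
  · simp only [if_neg hvu]
    have hkU := hk.2.2 v hvu
    by_cases hvT : v ∈ T₀
    · simp only [if_pos hvT]
      have hbi := hfb v (Finset.mem_erase.2 ⟨hvu, hvT⟩)
      refine ⟨?_, ?_⟩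
      · have := hbi (finGL305 v k) 1 (finGL305 v y) hkU (inU_one459 _)
        rwa [mul_one, ← map_mul] at this
      · have := hbi 1 (finGL305 v k) (finGL305 v y) (inU_one459 _) hkU
        rwa [one_mul, ← map_mul] at this
    · simp only [if_neg hvT]
      obtain ⟨Av, -, hA⟩ := hsph v hv hvT
      have hk0 := inU_zero_of459 hkU
      refine ⟨?_, ?_⟩
      · rw [hA, hA]
        have := Fermat.Agent.LT.H129.cartan_mul129 (g := finGL305 v y) hk0 (inU_one459 0)
        rw [mul_one, ← map_mul] at this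
        rw [this]
      · rw [hA, hA]
        have := Fermat.Agent.LT.H129.cartan_mul129 (g := finGL305 v y) (inU_one459 0) hk0
        rw [one_mul, ← map_mul] at this
        rw [this]

open Classical in
/-- The swapped pure tensor over `ℚ` is invariant on both sides under the good elements. -/
theorem pureQ_swDn_inv459 (B : L2QBase962 F) (T₀ T : Finset (HeightOneSpectrum (𝓞 ℚ)))
    (m : HeightOneSpectrum (𝓞 ℚ) → ℕ)
    (fb f₀ : ∀ v : HeightOneSpectrum (𝓞 ℚ), GL (Fin 2) (v.adicCompletion ℚ) → ℂ)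
    (Fr : GL (Fin 2) ℝ → ℂ)
    (hfb : ∀ v ∈ T₀.erase B.u, T6.IsBiInv (T6.InU (m v)) (fb v))
    (hsph : ∀ v ∈ T, v ∉ T₀ → ∃ Av : (ℤ × ℤ) →₀ ℂ, IsSphFn893 (f₀ v) Av)
    {k : G ℚ} (hk : IsGood459 B.u m k) (y : G ℚ) :
    pureQ298 T (swDnQ973 B T₀ fb f₀) Fr (k * y) = pureQ298 T (swDnQ973 B T₀ fb f₀) Fr y ∧
      pureQ298 T (swDnQ973 B T₀ fb f₀) Fr (y * k) = pureQ298 T (swDnQ973 B T₀ fb f₀) Fr y := by
  have hinfl : reGLQ298 (k * y) = reGLQ298 y := by
    rw [map_mul, reGLQ_eq_one459 (hk.1 _), one_mul]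
  have hinfr : reGLQ298 (y * k) = reGLQ298 y := by
    rw [map_mul, reGLQ_eq_one459 (hk.1 _), mul_one]
  have hfl : ∏ v ∈ T, swDnQ973 B T₀ fb f₀ v (finGL305 v (k * y))
      = ∏ v ∈ T, swDnQ973 B T₀ fb f₀ v (finGL305 v y) :=
    Finset.prod_congr rfl fun v hv => (swDnQ_inv459 B T₀ T m fb f₀ hfb hsph hk v hv y).1
  have hfr : ∏ v ∈ T, swDnQ973 B T₀ fb f₀ v (finGL305 v (y * k))
      = ∏ v ∈ T, swDnQ973 B T₀ fb f₀ v (finGL305 v y) :=
    Finset.prod_congr rfl fun v hv => (swDnQ_inv459 B T₀ T m fb f₀ hfb hsph hk v hv y).2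
  unfold pureQ298
  refine ⟨?_, ?_⟩
  · by_cases hy : OutT305 T y
    · rw [if_pos hy, if_pos ((outT_mul_left_iff459 hk T y).2 hy), hfl, hinfl]
    · rw [if_neg hy, if_neg (fun h => hy ((outT_mul_left_iff459 hk T y).1 h))]
  · by_cases hy : OutT305 T y
    · rw [if_pos hy, if_pos ((outT_mul_right_iff459 hk T y).2 hy), hfr, hinfr]
    · rw [if_neg hy, if_neg (fun h => hy ((outT_mul_right_iff459 hk T y).1 h))]

end Swap

/-! ## 6. The leaf -/

open Classical in
/-- **LEAF PBQ.0.D3 = SWAP-DOWN-INV over `ℚ`**, unconditional. -/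
theorem swapDnInvQC459 (F : Type) [Field F] [NumberField F] :
    Fermat.Agent.LT.T7.PBQ973.SwapDnInvQC973 F := by
  intro _ _ Φe B _ _ g _ 𝔫 h𝔫 μr μc _ _ T₀ n n₀ m hexp c _ c₁ Φ₁ F₁ _ fb hfb Ω iT _ _ _ iM _ ν _
    T T' φ₀ Φ f₀ F0 F1 hdat a t
  have hfbI : ∀ v ∈ T₀.erase (toBase962_732 B).u, T6.IsBiInv (T6.InU (m v)) (fb v) :=
    fun v hv => (hfb.inv_down v hv).1
  have hsph : ∀ ω : Ω, ∀ v ∈ T ω, v ∉ T₀ → ∃ Av : (ℤ × ℤ) →₀ ℂ, IsSphFn893 (f₀ ω v) Av := by
    intro ω v hv hvT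
    obtain ⟨A, Av, hAv, -⟩ := (hdat.1 ω).2.2.2.2.1 v hv hvT
    exact ⟨Av, hAv⟩
  have key : ∀ k : G ℚ, IsGood459 (toBase962_732 B).u m k → ∀ y : G ℚ,
      swapDnFnQ973 (toBase962_732 B) T₀ fb a ν T f₀ (archQ973 F0 F1 t) (k * y)
          = swapDnFnQ973 (toBase962_732 B) T₀ fb a ν T f₀ (archQ973 F0 F1 t) y ∧
        swapDnFnQ973 (toBase962_732 B) T₀ fb a ν T f₀ (archQ973 F0 F1 t) (y * k)
          = swapDnFnQ973 (toBase962_732 B) T₀ fb a ν T f₀ (archQ973 F0 F1 t) y := by
    intro k hk y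
    unfold swapDnFnQ973
    refine ⟨?_, ?_⟩
    · refine integral_congr_ae (Filter.Eventually.of_forall fun ω => ?_)
      show a * pureQ298 (T ω) (swDnQ973 (toBase962_732 B) T₀ fb (f₀ ω))
          (archQ973 F0 F1 t ω) (k * y)
        = a * pureQ298 (T ω) (swDnQ973 (toBase962_732 B) T₀ fb (f₀ ω)) (archQ973 F0 F1 t ω) y
      rw [(pureQ_swDn_inv459 (toBase962_732 B) T₀ (T ω) m fb (f₀ ω) (archQ973 F0 F1 t ω)
        hfbI (hsph ω) hk y).1]
    · refine integral_congr_ae (Filter.Eventually.of_forall fun ω => ?_)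
      show a * pureQ298 (T ω) (swDnQ973 (toBase962_732 B) T₀ fb (f₀ ω))
          (archQ973 F0 F1 t ω) (y * k)
        = a * pureQ298 (T ω) (swDnQ973 (toBase962_732 B) T₀ fb (f₀ ω)) (archQ973 F0 F1 t ω) y
      rw [(pureQ_swDn_inv459 (toBase962_732 B) T₀ (T ω) m fb (f₀ ω) (archQ973 F0 F1 t ω)
        hfbI (hsph ω) hk y).2]
  refine ⟨fun u hu y => key u (isGood_of_level459 h𝔫.u_level hexp.lev_dn hu) y,
    fun h h1 h2 h3 y => key h (isGood_of_iw459 m h1 (fun v hv => h2 v ?_) (h3 0 Nat.one_pos)) y⟩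
  intro j _
  exact hv

/-- The statement of the leaf, verbatim. -/
example (F : Type) [Field F] [NumberField F] :
    SwapCtxQ973 F fun _ B _ 𝔫 _ _ _ T₀ _ _ _ _ fb _ _ _ ν T _ _ _ f₀ F0 F1 =>
      ∀ (a : ℂ) (t : QWt),
        H193.IsBiHInv 𝔫 1 (fun _ => B.u)
          (swapDnFnQ973 B T₀ fb a ν T f₀ (archQ973 F0 F1 t)) :=
  swapDnInvQC459 F

end Fermat.Agent.LT.T7.H459

end
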